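import Fermat.Agent.General.GoodPrime.Slope
import Fermat.Agent.MazurPrinciple.Classes
import Fermat.Agent.MazurPrinciple.Torsion
import Fermat.Agent.MWJ0.DivisibleAll
import Fermat.Agent.TwoAdic.Geometry.FrobRed
import Fermat.Agent.EigenRep.Smooth

/-!
# Hecke polynomials killing the `p`-power torsion kill `p`-power classes of the special fibre

A class fixed by a power of Frobenius is the reduction of `p ^ a` times a class whose image is
again fixed, and the fixed classes are finite in number. So `T_ℓ - ℓ - 1` followed by such a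
polynomial brings a class fixed by a Kummer stabiliser into the kernel of reduction at `∞`.
-/

noncomputable section

open IsLocalRing ModularCurve AlgebraicCurve Fermat.Agent.Reduction Fermat.Agent.SemistableRed
  Fermat.Agent.FunctionFieldRR Fermat.Agent.LevelP Fermat.Agent.OrdinaryT

namespace Fermat.Agent.General.GoodPrime

local notation "Qbar" => AlgebraicClosure ℚ

attribute [local instance] HeckeJ0.hasPrincipalDivisors_bar

open MazurPrinciple (GoodHecke toHecke Lifted unitZ pairAt)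

theorem hecke_galois {N : ℕ} [NeZero N] (t : HeckeAlg) (g : Qbar ≃ₐ[ℚ] Qbar) (x : JZero N) :
    (letI := heckeModuleBar N; t • g • x) = g • (letI := heckeModuleBar N; t • x) := by
  let := heckeModuleBar N
  have hc := EigenRep.smulCommClass_of_equivariant (HeckeJ0.heckeOperatorsCommuteBar N)
    (HeckeJ0.heckeGaloisEquivariant N)
  exact (smul_comm g t x).symm

variable {A : ValuationSubring Qbar} {M p : ℕ} [NeZero M] [NeZero p] [Fact p.Prime]
  [CharP (ResidueField A) p] [IsAlgClosed (ResidueField A)] (S : Setting A M p)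
  [IsFunctionField (ResidueField A) (modularFunctionFieldFullC (ResidueField A) M)]
  [HasPrincipalDivisors (ResidueField A) (modularFunctionFieldFullC (ResidueField A) M)]
  [CharP (modularFunctionFieldFullC (ResidueField A) M) p]

include S in
/-- An endomorphism commuting with Galois and killing the `p`-power torsion reduces to zero on
classes whose reduction is killed by `p`. -/
theorem reductionModL_eq_zero (e : JZero M →+ JZero M)
    (he : ∀ (g : Qbar ≃ₐ[ℚ] Qbar) x, e (g • x) = g • e x)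
    (hker : ∀ (n : ℕ) ξ, p ^ n • ξ = 0 → e ξ = 0) {ξ : JZero M}
    (hpξ : p • reductionModL A M (e ξ) = 0) :
    reductionModL A M (e ξ) = 0 := by
  classical
  have hp : p.Prime := Fact.out
  have : Algebra.IsAlgebraic ℚ Qbar := AlgebraicClosure.isAlgebraic ℚ
  have : IsGalois ℚ Qbar := Frobenius.isGalois_qbar
  have hF := IgusaGenus.reductionFacts (N := M) S.not_dvd S.above
  obtain ⟨h, -, -⟩ := MazurPrinciple.exists_redMap_modL S
  obtain ⟨φ, hφ⟩ := Frobenius.exists_isFrobeniusAt_qbar hp S.above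
  obtain ⟨L, hL, hLfix⟩ := EigenRep.jZeroSmooth M ξ
  -- a power of Frobenius fixing `L`
  set F := IntermediateField.normalClosure ℚ L Qbar
  have : Normal ℚ F := normalClosure.normal ℚ _ Qbar
  set r := orderOf (AlgEquiv.restrictNormalHom (F := ℚ) (K₁ := Qbar) F φ)
  have hr : 0 < r := orderOf_pos _
  have hφL : ∀ a ∈ L, (φ ^ r) a = a := fun a ha => by
    have h1 := AlgEquiv.restrictNormal_commutes (φ ^ r) F ⟨a, L.le_normalClosure ha⟩
    rw [show (φ ^ r).restrictNormal F = 1 from
      (map_pow (AlgEquiv.restrictNormalHom (F := ℚ) (K₁ := Qbar) F) φ r).trans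
        (pow_orderOf_eq_one _)] at h1
    exact h1.symm
  have hred : ∀ (m : ℕ) x, reductionModL A M (φ ^ m • x) =
      frobG (ResidueField A) M p ^ m • reductionModL A M x := fun m => by
    induction m with
    | zero => intro x; simp
    | succ m ih =>
      intro x
      refine (congrArg (fun g => reductionModL A M (g • x)) (pow_succ φ m)).trans ?_
      refine (congrArg (reductionModL A M) (mul_smul _ φ x)).trans ((ih _).trans ?_)
      refine (congrArg (_ • ·) (TwoAdic.Geometry.reductionModL_frob h hφ x)).trans ?_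
      exact (smul_smul _ _ _).trans (congrArg (· • _) (pow_succ _ m).symm)
  let C := (ResidualTorsion.frobCurve S.not_dvd S.above).power r hr
  have hfin : Finite C.Fix := C.finite_fix
  set c := Nat.card C.Fix
  have hc : 0 < c := Nat.card_pos
  obtain ⟨a, m, hm, hcm⟩ := Nat.exists_eq_pow_mul_and_not_dvd hc.ne' p hp.ne_one
  obtain ⟨ξa, hξa⟩ := MWJ0.jZero_divisible M (pow_ne_zero a hp.ne_zero) ξ
  have hfix : φ ^ r • e ξa = e ξa := by
    rw [← he, ← sub_eq_zero, ← map_sub]
    refine hker a _ ?_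
    rw [nsmul_sub, ← DistribSMul.toAddMonoidHom_apply (A := JZero M), ← map_nsmul,
      DistribSMul.toAddMonoidHom_apply, hξa, hLfix _ hφL, sub_self]
  have hmem : reductionModL A M (e ξa) ∈ C.Fix := by
    show frobG (ResidueField A) M p ^ r • _ = _
    rw [← hred, hfix]
  have hcard : c • reductionModL A M (e ξa) = 0 :=
    congrArg Subtype.val (card_nsmul_eq_zero' (x := (⟨_, hmem⟩ : C.Fix)))
  have hy : reductionModL A M (e ξ) = p ^ a • reductionModL A M (e ξa) := by
    rw [← map_nsmul, ← map_nsmul, hξa]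
  rw [hcm, mul_comm, mul_nsmul', ← hy] at hcard
  obtain ⟨u, v, huv⟩ : IsCoprime (m : ℤ) (p : ℤ) :=
    Nat.isCoprime_iff_coprime.mpr ((hp.coprime_iff_not_dvd.mpr hm).symm)
  generalize reductionModL A M (e ξ) = y at hcard hpξ ⊢
  rw [← one_zsmul y, ← huv, add_zsmul, mul_zsmul, mul_zsmul,
    natCast_zsmul, natCast_zsmul, hcard, hpξ, zsmul_zero, zsmul_zero, add_zero]

omit [CharP (↥(modularFunctionFieldFullC (ResidueField ↥A) M)) p] in
/-- A class lifted by one with zero reduction has a function reducing to an `n`-th power. -/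
theorem mem_killed_of_red {h : ReductionInputsModL A M} {R : S.model.ReductionMap}
    (hR : R.toFun = placeReductionModL h) {n : ℕ} (hn : n ≠ 0) {x : JZero (M * p)} {ξ : JZero M}
    (hx : Lifted S R n x ξ) (h0 : reductionModL A M ξ = 0) : x ∈ killed S.splitModel 0 n := by
  have := HeckeJ0.isFunctionField_bar (M * p)
  obtain ⟨u, D, hu, hui, hur, rfl, hd⟩ := hx
  rw [reductionModL_mk h] at h0
  have h1 := (QuotientAddGroup.eq_zero_iff _).mp h0
  simp only [AddSubgroup.mem_addSubgroupOf] at h1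
  obtain ⟨g, hg, hgD⟩ := h1
  set z := S.splitModel.red 0 u
  obtain ⟨a, ha⟩ := exists_algebraMap_eq_of_forall_ord_nonneg (K := ResidueField A)
    (f := z / g ^ n) fun P => by
      rw [ord_div P hur (pow_ne_zero _ hg), ord_pow]
      have h2 := congrArg (fun E : Divisor (ResidueField A) _ => E P) hd
      have h3 := hgD P
      simp only [coe_reductionDegZeroAlong, ← hR] at h3
      simp only [dvs_apply, Finsupp.smul_apply, smul_eq_mul, h3] at h2
      omega
  obtain ⟨r, hr⟩ := IsAlgClosed.exists_pow_nat_eq a (Nat.pos_of_ne_zero hn)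
  have hz : z = (algebraMap (ResidueField A) _ r * g) ^ n := by
    rw [mul_pow, ← map_pow, hr, ← ha, div_mul_cancel₀ _ (pow_ne_zero _ hg)]
  refine ⟨u, hu, hu.1, 1, algebraMap (ResidueField A) _ r * g, ?_, by rw [one_smul]; exact hui,
    by rw [one_smul]; exact hz⟩
  intro e
  rw [e, zero_pow hn] at hz
  exact hur hz

omit [IsFunctionField (ResidueField ↥A) ↥(modularFunctionFieldFullC (ResidueField ↥A) M)]
    [CharP (↥(modularFunctionFieldFullC (ResidueField ↥A) M)) p] in
/-- The reduction of a lifting class is killed. -/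
theorem nsmul_reduction_eq_zero {h : ReductionInputsModL A M} {R : S.model.ReductionMap}
    (hR : R.toFun = placeReductionModL h) {n : ℕ} {x : JZero (M * p)} {ξ : JZero M}
    (hx : Lifted S R n x ξ) : n • reductionModL A M ξ = 0 := by
  obtain ⟨u, D, hu, hui, hur, rfl, hd⟩ := hx
  rw [reductionModL_mk h]
  refine (QuotientAddGroup.eq_zero_iff _).mpr ?_
  simp only [AddSubgroup.mem_addSubgroupOf]
  refine ⟨S.splitModel.red 0 u, hur, fun P => ?_⟩
  rw [AddSubgroup.coe_nsmul, coe_reductionDegZeroAlong, ← hR, ← dvs_apply, hd, ← natCast_zsmul]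

variable (K : KummerGen A p) (U : LevelUnit S)

/-- **`T_ℓ - ℓ - 1` brings classes fixed by the stabiliser into the lifted ones.** -/
theorem exists_lifted_fixed (R : S.model.ReductionMap)
    (hcop : ∀ x (hx : x ∈ S.splitModel.pairs), ¬ p ∣ (pairAt U hx).e)
    {x : JZero (M * p)} (hx : p • x = 0) (hfix : ∀ σ ∈ K.H, σ • x = x)
    {ℓ : ℕ} [NeZero ℓ] (hℓ : ℓ.Prime) (hℓN : ¬ ℓ ∣ M * p) :
    ∃ ξ, Lifted S R p (heckeOperatorAlong Qbar (M * p) ℓ x - (ℓ + 1) • x) ξ := by
  have hp : p.Prime := Fact.out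
  have hℓM : ¬ ℓ ∣ M := fun h => hℓN (h.mul_right p)
  have hℓp : ℓ ≠ p := fun h => hℓN (h ▸ dvd_mul_left p M)
  obtain ⟨u, hufix, hu⟩ := exists_fixed_function K.fixer (NeZero.ne p) x hx hfix
  obtain ⟨hu0, D, hDx, hDu⟩ := hu
  let uL : K.fixedField S := ⟨u, (K.mem_fixedField S).mpr hufix⟩
  have huL : uL ≠ 0 := fun e => hu0 (congrArg Subtype.val e)
  obtain ⟨c, E, V, s, d, hc, hd, hdV, hci, hz0, hdec⟩ := exists_decomp_fixed S K U hcop huL hDu
  set u₁ := c • u
  change S.splitModel.Int 0 u₁ at hci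
  change S.splitModel.red 0 u₁ ≠ 0 at hz0
  change dvs (K := ResidueField A) (S.splitModel.red 0 u₁) = _ at hdec
  have hu₁ : IsFunctionOf p x u₁ := MazurPrinciple.isFunctionOf_smul ⟨hu0, D, hDx, hDu⟩ hc
  obtain ⟨ti, t0, tD⟩ := MazurPrinciple.red0_Tfun R hℓ hℓN hci hz0
  obtain ⟨DE, hDE⟩ := MazurPrinciple.exists_lift_divisor R E
  obtain ⟨DV, hDV⟩ := MazurPrinciple.exists_lift_divisor R V
  have hTV : Finsupp.mapDomain R.toFun (MazurPrinciple.Tdiv M ℓ DV) = ((ℓ : ℤ) + 1) • V := by
    have h1 := MazurPrinciple.red_Tdiv_unitZ U R hℓ hℓM hℓp (D := d • DV)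
      (by rw [Finsupp.mapDomain_smul, hDV, hdV])
    rw [map_zsmul, Finsupp.mapDomain_smul, ← hdV, smul_comm] at h1
    refine Finsupp.ext fun P => mul_left_cancel₀ hd ?_
    simpa only [Finsupp.smul_apply, smul_eq_mul] using
      congrArg (fun Z : Divisor (ResidueField A) _ => Z P) h1
  have hTy := tD ((p : ℤ) • DE + s • DV)
    (by rw [hdec, Finsupp.mapDomain_add, Finsupp.mapDomain_smul, Finsupp.mapDomain_smul, hDE, hDV])
  rw [map_add, map_zsmul, map_zsmul, Finsupp.mapDomain_add, Finsupp.mapDomain_smul,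
    Finsupp.mapDomain_smul, hTV] at hTy
  set D₀ := MazurPrinciple.Tdiv M ℓ DE - ((ℓ : ℤ) + 1) • DE with hD₀
  have hdeg : D₀ ∈ Divisor.degZero (K := Qbar) (F := modularFunctionFieldBar M) := by
    rw [Divisor.mem_degZero, hD₀, map_sub, map_zsmul, MazurPrinciple.degree_Tdiv hℓ hℓM,
      smul_eq_mul, sub_self]
  obtain ⟨pi, pr⟩ : S.splitModel.Int 0 (u₁ ^ (ℓ + 1)) ∧
      S.splitModel.red 0 (u₁ ^ (ℓ + 1)) = S.splitModel.red 0 u₁ ^ (ℓ + 1) :=
    ⟨S.splitModel.int_pow hci _, S.splitModel.red_pow hci _⟩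
  obtain ⟨ii, ir⟩ := S.splitModel.int_inv pi (by rw [pr]; exact pow_ne_zero _ hz0)
  refine ⟨Pic0.mk ⟨D₀, hdeg⟩, MazurPrinciple.Tfun (M * p) ℓ u₁ * (u₁ ^ (ℓ + 1))⁻¹, ⟨D₀, hdeg⟩, ?_,
    S.splitModel.int_mul 0 _ _ ti ii, ?_, rfl, ?_⟩
  · rw [sub_eq_add_neg]
    exact (MazurPrinciple.isFunctionOf_Tfun hu₁).mul
      (MazurPrinciple.isFunctionOf_pow hu₁ (ℓ + 1)).inv
  · rw [S.splitModel.red_mul 0 _ _ ti ii, ir, pr]
    exact mul_ne_zero t0 (inv_ne_zero (pow_ne_zero _ hz0))
  · rw [S.splitModel.red_mul 0 _ _ ti ii, ir, pr]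
    refine Finsupp.ext fun P => ?_
    have h1 := congrArg (fun Z : Divisor (ResidueField A) _ => Z P) hTy
    have h2 := congrArg (fun Z : Divisor (ResidueField A) _ => Z P) hdec
    simp only [dvs_apply, Finsupp.add_apply, Finsupp.smul_apply, smul_eq_mul] at h1 h2
    rw [dvs_apply, P.ord_mul t0 (inv_ne_zero (pow_ne_zero _ hz0)), P.ord_inv, ord_pow, h1, h2,
      Finsupp.smul_apply, smul_eq_mul]
    simp only [hD₀, Finsupp.mapDomain_sub, Finsupp.mapDomain_smul, hDE, Finsupp.sub_apply,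
      Finsupp.smul_apply, smul_eq_mul]
    push_cast
    ring

include U in
/-- **The kernel on the component at `∞`.** -/
theorem mem_killed_zero (hcop : ∀ x (hx : x ∈ S.splitModel.pairs), ¬ p ∣ (pairAt U hx).e)
    {x : JZero (M * p)} (hx : p • x = 0) (hfix : ∀ σ ∈ K.H, σ • x = x)
    {ℓ : ℕ} [NeZero ℓ] (hℓ : ℓ.Prime) (hℓN : ¬ ℓ ∣ M * p) (Q : GoodHecke (M * p))
    (hQ : ∀ (n : ℕ) (ξ : JZero M), p ^ n • ξ = 0 →
      (letI := heckeModuleBar M
       toHecke Q • ξ) = 0) :
    (letI := heckeModuleBar (M * p);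
      toHecke Q • (heckeOperatorAlong Qbar (M * p) ℓ x - (ℓ + 1) • x)) ∈
        killed S.splitModel 0 p := by
  obtain ⟨h, R, hR⟩ := MazurPrinciple.exists_redMap_modL S
  obtain ⟨ξ, hξ⟩ := exists_lifted_fixed S K U R hcop hx hfix hℓ hℓN
  have h1 := hξ.poly Q
  let := heckeModuleBar M
  refine mem_killed_of_red S hR (NeZero.ne p) h1 ?_
  exact reductionModL_eq_zero S (DistribSMul.toAddMonoidHom (JZero M) (toHecke Q))
    (fun g y => hecke_galois (toHecke Q) g y) hQ
    (nsmul_reduction_eq_zero S hR h1)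

end Fermat.Agent.General.GoodPrime

end
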