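import Fermat.Agent.General.GoodPrime.UnitRoot
import Fermat.Agent.FlatJ0.Elliptic
import Mathlib.NumberTheory.LegendreSymbol.AddCharacter
import Mathlib.LinearAlgebra.Vandermonde

/-!
# A fixed point of the stabiliser of a Kummer generator, good ordinary reduction

The coset of a lift of a point of order `p` of the reduction has the abscissae `e_c`; a resolvent
`∑ ζ ^ (-c) e_c ^ k` is a Kummer element for the extension class of `E[p]`, and Fontaine's bound
makes it a unit up to a power of `p`.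
-/

noncomputable section

open WeierstrassCurve
open scoped WeierstrassCurve.Affine

namespace Fermat.Agent.General.GoodPrime

open FlatJ0 EllLocal MultRed

local notation "Ω" => AlgebraicClosure ℚ

attribute [local instance] EllLocal.instDecEqKA

variable {W : WeierstrassCurve ℤ} {A : ValuationSubring Ω} {p : ℕ} [hpF : Fact p.Prime]
  [(W.map (Int.castRingHom ℚ)).IsElliptic]

local notation "E" => PtQ (W.map (Int.castRingHom ℚ))

/-- A resolvent of distinct values is nonzero for some exponent. -/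
theorem exists_resolvent_ne_zero {n : ℕ} [NeZero n] (ψ : AddChar (ZMod n) Ω) {e : ZMod n → Ω}
    (he : Function.Injective e) : ∃ k : ℕ, ∑ c, ψ (-c) * e c ^ k ≠ 0 := by
  by_contra hall
  push Not at hall
  let ε : Fin n ≃ ZMod n := ZMod.finEquiv n
  have h := Matrix.eq_zero_of_forall_pow_sum_mul_pow_eq_zero (f := fun i => e (ε i))
    (v := fun i => ψ (-ε i)) (he.comp ε.injective) fun i => by
      rw [← hall i]
      exact Fintype.sum_equiv ε _ _ fun j => rfl
  have h0 := congrFun h (ε.symm 0)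
  simp only [Equiv.apply_symm_apply, neg_zero, AddChar.map_zero_eq_one, Pi.zero_apply] at h0
  exact one_ne_zero h0

/-- **A point of `E[p]` fixed by the stabiliser of a Kummer generator**, good ordinary reduction. -/
theorem exists_fixed_point_ordinary (hA : A.LiesOverPrime p) (hp3 : 3 ≤ p)
    (hgood : W.IsGoodPrimeFor p) (hord : IsGoodOrdinary W p) :
    ∃ K : LevelP.KummerGen A p, ∃ Q : E, Q ≠ 0 ∧ p • Q = 0 ∧ ∀ σ ∈ K.H, σ • Q = Q := by
  classical
  have hp := hpF.out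
  have : NeZero p := ⟨hp.ne_zero⟩
  have hp2 : p ≠ 2 := by omega
  have hIO : IsOver A p := ⟨hp, hA⟩
  have hordA := (ordinaryRedAt_iff hA hgood).2 hord
  obtain ⟨ζ, hζ⟩ := HasEnoughRootsOfUnity.exists_primitiveRoot Ω p
  obtain ⟨P₁, P₂, hP₁, hP₂, hgen, hind, hk₁, hord₂, hact⟩ :=
    exists_ordinary_shape hA hgood hordA 1
  simp only [pow_one] at hP₁ hP₂ hgen hind hord₂
  have hP₁0 : P₁ ≠ 0 := fun e => hp.not_dvd_one
    (hind 1 0 (by rw [e, nsmul_zero, zero_nsmul, add_zero])).1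
  have hP₂red : redAt hA hgood P₂ ≠ 0 := fun e => by
    rw [e, addOrderOf_zero] at hord₂
    exact hp.one_lt.ne hord₂
  -- inertia on the coset
  have hc : ∀ σ ∈ A.inertiaSubgroupIn ℚ, ∃ a d : ℕ, σ ζ = ζ ^ a ∧ σ • P₁ = a • P₁ ∧
      σ • P₂ = P₂ + d • P₁ := by
    intro σ hσ
    obtain ⟨a, ha, -⟩ := exists_exponent_succ (p := p) σ (n := 0) (a := 1) (by simp)
    obtain ⟨x, z', d, h1, h2, -, hI, -⟩ := hact σ (inertia_mem_decomposition hσ) a ha
    refine ⟨a, d, ha ζ (by rw [pow_one]; exact hζ.pow_eq_one), ?_, ?_⟩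
    · rw [h1]
      exact nsmul_congr_of_cast (N := p ^ 1) (by rw [pow_one]; exact hP₁) (hI hσ).2
    · rw [h2]
      conv_rhs => rw [← one_nsmul P₂]
      congr 1
      exact nsmul_congr_of_cast (N := p ^ 1) (by rw [pow_one]; exact hP₂)
        (by rw [(hI hσ).1, Nat.cast_one])
  let Q : ZMod p → E := fun c => P₂ + c.val • P₁
  have hQp : ∀ c, p • Q c = 0 := fun c => by
    show p • (P₂ + c.val • P₁) = 0
    rw [nsmul_add, hP₂, smul_comm, hP₁, nsmul_zero, add_zero]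
  have hQred : ∀ c, redAt hA hgood (Q c) = redAt hA hgood P₂ := fun c => by
    show redAt hA hgood (P₂ + c.val • P₁) = _
    rw [map_add, map_nsmul, hk₁, nsmul_zero, add_zero]
  let e : ZMod p → Ω := fun c => xCoord (Q c)
  have hQinj : Function.Injective Q := fun c c' h => by
    have h1 : c.val • P₁ = c'.val • P₁ := add_left_cancel h
    wlog hle : c'.val ≤ c.val generalizing c c' with H
    · exact (H c' c h.symm h1.symm (le_of_not_ge hle)).symm
    have h2 : (c.val - c'.val) • P₁ + 0 • P₂ = 0 := by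
      rw [zero_nsmul, add_zero]
      refine add_right_cancel (b := c'.val • P₁) ?_
      rw [← add_nsmul, Nat.sub_add_cancel hle, zero_add, h1]
    refine ZMod.val_injective p (le_antisymm ?_ hle)
    exact Nat.sub_eq_zero_iff_le.mp (Nat.eq_zero_of_dvd_of_lt (hind _ _ h2).1
      ((Nat.sub_le _ _).trans_lt (ZMod.val_lt c)))
  have heinj : Function.Injective e := fun c c' h => by
    by_contra hne
    have h1 := valuation_xCoord_sub hA hp2 hgood (hQp c) (by rw [hQred]; exact hP₂red)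
      (by rw [hQred, hQred]) (hQinj.ne hne)
    have h2 := valuation_zPar_kernel hA hgood hordA (P := Q c - Q c')
      (by rw [nsmul_sub, hQp, hQp, sub_zero]) (sub_ne_zero.2 (hQinj.ne hne))
      (by rw [map_sub, hQred, hQred, sub_self])
    rw [← h1, show xCoord (Q c) = xCoord (Q c') from h, sub_self, map_zero,
      zero_pow (by omega : p - 1 ≠ 0)] at h2
    exact (vq_pos hp).ne h2
  let ψ : AddChar (ZMod p) Ω := AddChar.zmodChar p hζ.pow_eq_one
  have hψn : ∀ n : ℕ, ψ (n : ZMod p) = ζ ^ n := AddChar.zmodChar_apply' hζ.pow_eq_one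
  obtain ⟨k, hk⟩ := exists_resolvent_ne_zero ψ heinj
  set z₀ := ∑ c, ψ (-c) * e c ^ k with hz₀
  -- the Kummer element
  have hz : ∀ σ ∈ A.inertiaSubgroupIn ℚ, ∃ a d : ℕ, σ ζ = ζ ^ a ∧ σ • P₁ = a • P₁ ∧
      σ • P₂ = P₂ + d • P₁ ∧ σ z₀ = ζ ^ d * z₀ := by
    intro σ hσ
    obtain ⟨a, d, ha, h1, h2⟩ := hc σ hσ
    refine ⟨a, d, ha, h1, h2, ?_⟩
    have hau : (a : ZMod p) ≠ 0 := fun h0 => by
      obtain ⟨t, ht⟩ := (ZMod.natCast_eq_zero_iff a p).mp h0
      refine hζ.ne_one hp.one_lt (σ.injective ?_)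
      rw [ha, ht, pow_mul, hζ.pow_eq_one, one_pow, map_one]
    have he : ∀ c, σ (e c) = e ((d : ZMod p) + (a : ZMod p) * c) := fun c => by
      show σ (xCoord (Q c)) = xCoord (Q _)
      rw [← xCoord_smul]
      congr 1
      show σ • (P₂ + c.val • P₁) = P₂ + ((d : ZMod p) + (a : ZMod p) * c).val • P₁
      rw [Affine.Point.algEquiv_smul_def, map_add, map_nsmul, ← Affine.Point.algEquiv_smul_def,
        ← Affine.Point.algEquiv_smul_def, h2, h1, add_assoc, ← mul_nsmul', ← add_nsmul]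
      congr 1
      refine nsmul_congr_of_cast hP₁ ?_
      rw [Nat.cast_add, Nat.cast_mul, ZMod.natCast_zmod_val, ZMod.natCast_zmod_val]
      ring
    have hψσ : ∀ c : ZMod p, σ (ψ c) = ψ ((a : ZMod p) * c) := fun c => by
      conv_lhs => rw [← ZMod.natCast_zmod_val c, hψn, map_pow, ha, ← pow_mul, ← hψn]
      rw [Nat.cast_mul, ZMod.natCast_zmod_val]
    have hbij : Function.Bijective fun c : ZMod p => (d : ZMod p) + (a : ZMod p) * c :=
      Finite.injective_iff_bijective.1 fun c c' hcc => mul_left_cancel₀ hau (add_left_cancel hcc)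
    rw [hz₀, map_sum, Finset.mul_sum]
    refine Fintype.sum_equiv (Equiv.ofBijective _ hbij) _ _ fun c => ?_
    rw [map_mul, map_pow, he, hψσ, Equiv.ofBijective_apply, ← hψn, ← mul_assoc,
      ← AddChar.map_add_eq_mul]
    congr 2
    ring
  set N := torsionKer A p E with hN
  have hN₁ : ∀ σ ∈ N, σ ζ = ζ ∧ σ z₀ = z₀ := by
    intro σ hσ
    obtain ⟨a, d, ha, h1, h2, h3⟩ := hz σ hσ.1
    have hd : p ∣ d := (hind d 0 (by
      rw [zero_nsmul, add_zero]
      exact add_left_cancel (a := P₂) (by rw [← h2, hσ.2 P₂ hP₂, add_zero]))).1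
    have ha' : (a : ZMod p) = 1 := by
      rw [hσ.2 P₁ hP₁] at h1
      have h4 : ((a + (p - 1) * 1 : ℕ) : ZMod p) = 0 := by
        refine (ZMod.natCast_eq_zero_iff _ p).mpr (hind _ 0 ?_).1
        rw [zero_nsmul, add_zero, add_nsmul, ← h1, mul_one]
        conv_lhs => lhs; rw [← one_nsmul P₁]
        rw [← add_nsmul, Nat.add_sub_cancel' hp.one_le, hP₁]
      push_cast [Nat.cast_sub hp.one_le, ZMod.natCast_self] at h4
      linear_combination h4
    refine ⟨?_, ?_⟩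
    · rw [ha, ← hψn, ha', ← Nat.cast_one (R := ZMod p), hψn, pow_one]
    · rw [h3, (hζ.pow_eq_one_iff_dvd d).mpr hd, one_mul]
  have hnormal : ∀ g ∈ A.inertiaSubgroupIn ℚ, ∀ n ∈ N, g * n * g⁻¹ ∈ N := fun g hg n hn =>
    ⟨mul_mem (mul_mem hg hn.1) (inv_mem hg), fun w hw => by
      rw [mul_smul, mul_smul, hn.2 (g⁻¹ • w)
        (by rw [smul_comm, hw]; exact smul_zero (A := E) g⁻¹), smul_inv_smul]⟩
  have hopen : IsOpenInInertia A N := by
    obtain ⟨F, hF, h⟩ := exists_level_torsion (p := p) W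
    exact ⟨F, hF, fun σ hσ hσF => ⟨hσ, h σ hσF⟩⟩
  have hpow₀ : ∀ σ ∈ A.inertiaSubgroupIn ℚ, σ (z₀ ^ p) = z₀ ^ p := fun σ hσ => by
    obtain ⟨a, d, -, -, -, h3⟩ := hz σ hσ
    rw [map_pow, h3, mul_pow, ← pow_mul, mul_comm d, pow_mul, hζ.pow_eq_one, one_pow, one_mul]
  obtain ⟨j₀, hj₀⟩ := exists_ord_eq_int_of_bound hIO hp3 (N := N) (fun _ hσ => hσ.1) hnormal hopen
    (fun γ hγ => hasBound_torsionKer hA hp2 hgood hγ) hζ hk
    (fun σ hσ => (hN₁ σ hσ).1) (fun σ hσ => (hN₁ σ hσ).2) hpow₀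
  set z := z₀ / (p : Ω) ^ j₀ with hzdef
  have hpj : (p : Ω) ^ j₀ ≠ 0 := zpow_ne_zero _ (Nat.cast_ne_zero.mpr hp.ne_zero)
  have hz0 : z ≠ 0 := div_ne_zero hk hpj
  have hzord : ord A p z = 0 := by
    rw [hzdef, hIO.ord_div hk hpj, hj₀, sub_eq_zero]
    obtain ⟨n, rfl | rfl⟩ := Int.eq_nat_or_neg j₀
    · rw [zpow_natCast, hIO.ord_pow hIO.natCast_ne_zero, hIO.ord_p, mul_one]; rfl
    · rw [zpow_neg, zpow_natCast, hIO.ord_inv (pow_ne_zero _ hIO.natCast_ne_zero),
        hIO.ord_pow hIO.natCast_ne_zero, hIO.ord_p, mul_one]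
      push_cast; rfl
  have hzσ : ∀ σ ∈ A.inertiaSubgroupIn ℚ, ∃ a d : ℕ, σ ζ = ζ ^ a ∧ σ • P₁ = a • P₁ ∧
      σ • P₂ = P₂ + d • P₁ ∧ σ z = ζ ^ d * z := fun σ hσ => by
    obtain ⟨a, d, ha, h1, h2, h3⟩ := hz σ hσ
    exact ⟨a, d, ha, h1, h2, by rw [hzdef, map_div₀, map_zpow₀, map_natCast, h3, mul_div_assoc]⟩
  have hpow : ∀ σ ∈ A.inertiaSubgroupIn ℚ, σ (z ^ p) = z ^ p := fun σ hσ => by
    obtain ⟨a, d, -, -, -, h3⟩ := hzσ σ hσ
    rw [map_pow, h3, mul_pow, ← pow_mul, mul_comm d, pow_mul, hζ.pow_eq_one, one_pow, one_mul]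
  rcases LevelP.kummer_dichotomy hIO hp3 hζ hz0 hzord hpow with ⟨j, hj⟩ | ⟨K, hK⟩
  · obtain ⟨K⟩ := LevelP.exists_kummerGen hIO
    refine ⟨K, P₂ + j • P₁, fun e0 => hP₂red ?_, by
      rw [nsmul_add, hP₂, smul_comm, hP₁, nsmul_zero, add_zero], fun σ hσ => ?_⟩
    · have h := congrArg (redAt hA hgood) e0
      rwa [map_add, map_nsmul, hk₁, nsmul_zero, add_zero, map_zero] at h
    obtain ⟨a, d, ha, h1, h2, h3⟩ := hzσ σ hσ.1
    have hmod : (((d + j * a : ℕ) : ℕ) : ZMod p) = (j : ZMod p) := by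
      have h := hj σ hσ.1
      rw [map_mul, map_pow, ha, h3, ← mul_assoc, ← pow_mul, ← pow_add] at h
      have h' := ((hζ.isOfFinOrder hp.ne_zero).pow_eq_pow_iff_modEq).1 (mul_right_cancel₀ hz0 h)
      rw [← hζ.eq_orderOf, mul_comm a, add_comm] at h'
      exact (ZMod.natCast_eq_natCast_iff _ _ _).mpr h'
    rw [Affine.Point.algEquiv_smul_def, map_add, map_nsmul, ← Affine.Point.algEquiv_smul_def,
      ← Affine.Point.algEquiv_smul_def, h2, h1, add_assoc, ← mul_nsmul', ← add_nsmul]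
    congr 1
    exact nsmul_congr_of_cast hP₁ hmod
  · refine ⟨K, P₂, fun e0 => hP₂red (by rw [e0, map_zero]), hP₂, fun σ hσ => ?_⟩
    obtain ⟨a, d, -, -, h2, h3⟩ := hzσ σ hσ.1
    obtain ⟨t, rfl⟩ : p ∣ d := by
      rw [← hζ.pow_eq_one_iff_dvd]
      exact mul_right_cancel₀ hz0 (by rw [← h3, one_mul, ← hK, hσ.2])
    rwa [mul_comm, mul_nsmul', hP₁, nsmul_zero, add_zero] at h2

end Fermat.Agent.General.GoodPrime

end
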