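import Fermat.Agent.MazurPrinciple.Component
import Fermat.Agent.LevelP.Vanish
import Fermat.Agent.LevelP.PairSlope

/-!
# The divisor of the reduction of a function fixed by a Kummer stabiliser

Such a function with divisor `p D` reduces, after scaling, to a function with divisor a multiple
of the unit divisor modulo `p`: the slopes at all pairs are equal, as the logarithmic parts are
constants.
-/

noncomputable section

open IsLocalRing ModularCurve AlgebraicCurve Fermat.Agent.Reduction Fermat.Agent.SemistableRed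
  Fermat.Agent.FunctionFieldRR Fermat.Agent.LevelP

namespace Fermat.Agent.General.GoodPrime

local notation "Qbar" => AlgebraicClosure ℚ

attribute [local instance] HeckeJ0.hasPrincipalDivisors_bar

open MazurPrinciple (pairAt unitW unitZ pair_e_dvd ord_unit_pair ord_unit_smooth unitZ_apply)

variable {A : ValuationSubring Qbar} {M p : ℕ} [NeZero M] [NeZero p] [Fact p.Prime]
  [CharP (ResidueField A) p] [IsAlgClosed (ResidueField A)] (S : Setting A M p)
  (K : KummerGen A p)
  [IsFunctionField (ResidueField A) (modularFunctionFieldFullC (ResidueField A) M)]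
  [HasPrincipalDivisors (ResidueField A) (modularFunctionFieldFullC (ResidueField A) M)]
  [CharP (modularFunctionFieldFullC (ResidueField A) M) p]

local notation "FF" => modularFunctionFieldBar (M * p)
local notation "cst" => algebraMap Qbar (modularFunctionFieldBar (M * p))

section Generic

variable {L : Type*} [Field L] {B : ValuationSubring L} {k : Type*} [Field k] {π : B →+* k}
  {F : Type*} [Field F] [Algebra L F] {G : Type*} [Field G] [Algebra k G]
  {S : SplitModel B π F G} {p : ℕ} [Fact p.Prime] (Δ : Descent S p)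
  {FL : IntermediateField Δ.F₀ F}

/-- An integral element of an extension by a constant reduces to its first coordinate. -/
theorem red_of_isIntL (E : RamExt Δ.glueData FL) {ϖ : L} (hϖ : ϖ ∈ B) (hres : π ⟨ϖ, hϖ⟩ = 0)
    (hπ : ((E.π : FL) : F) = algebraMap L F ϖ) {i : Fin 2} {x : FL} (hx : E.IsIntL i x) :
    S.Int i (x : F) ∧ S.red i (x : F) = E.coordRed i x zeroF := by
  classical
  refine ⟨int_of_isIntL Δ E hϖ hπ hx, ?_⟩
  have hsum : (x : F) =
      ∑ j, ((E.basis.repr x j : Δ.F₀) : F) * algebraMap L F (ϖ ^ (j : ℕ)) := by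
    conv_lhs => rw [← E.basis.sum_repr x, IntermediateField.coe_sum]
    refine Finset.sum_congr rfl fun j _ => ?_
    rw [Algebra.smul_def, MulMemClass.coe_mul, E.basis_eq, SubmonoidClass.coe_pow, hπ, ← map_pow]
    rfl
  have hc : ∀ j : Fin p, S.Int i (algebraMap L F (ϖ ^ (j : ℕ))) ∧
      S.red i (algebraMap L F (ϖ ^ (j : ℕ))) = algebraMap k G (π ⟨_, pow_mem hϖ j⟩) := fun j =>
    Descent.int_const (pow_mem hϖ _) i
  rw [hsum, (S.int_sum Finset.univ fun j _ => S.int_mul i _ _ (hx j) (hc j).1).2,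
    Finset.sum_eq_single zeroF]
  · rw [S.red_mul i _ _ (hx zeroF) (hc zeroF).1, (hc zeroF).2,
      show (⟨ϖ ^ ((zeroF : Fin p) : ℕ), pow_mem hϖ _⟩ : B) = 1 from Subtype.ext (pow_zero ϖ),
      map_one, map_one, mul_one, RamExt.coordRed, Δ.glueData_redF (hx zeroF)]
  · intro j _ hj
    rw [S.red_mul i _ _ (hx j) (hc j).1, (hc j).2,
      show (⟨ϖ ^ (j : ℕ), pow_mem hϖ _⟩ : B) = ⟨ϖ, hϖ⟩ ^ (j : ℕ) from Subtype.ext rfl, map_pow,
      hres, zero_pow (fun h => hj (Fin.ext h)), map_zero, mul_zero]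
  · simp

/-- Division by a power of the uniformiser is scaling by a constant. -/
theorem smul_eq_of_zpow_mul (E : RamExt Δ.glueData FL) {ϖ : L} (hϖ0 : ϖ ≠ 0)
    (hπ : ((E.π : FL) : F) = algebraMap L F ϖ) {u u0 : FL} {v0 : ℤ} (h : u = E.π ^ v0 * u0) :
    (ϖ ^ v0)⁻¹ • (u : F) = (u0 : F) := by
  have e : ((E.π ^ v0 : FL) : F) = algebraMap L F (ϖ ^ v0) := by
    rw [map_zpow₀, ← hπ]
    exact map_zpow₀ FL.val E.π v0
  rw [h, MulMemClass.coe_mul, e, Algebra.smul_def, ← mul_assoc, ← map_mul,
    inv_mul_cancel₀ (zpow_ne_zero _ hϖ0), map_one, one_mul]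

end Generic

omit [IsFunctionField (ResidueField ↥A) ↥(modularFunctionFieldFullC (ResidueField ↥A) M)]
    [HasPrincipalDivisors (ResidueField ↥A) ↥(modularFunctionFieldFullC (ResidueField ↥A) M)] in
/-- An integral element of the fixed field reduces to the reduction of its first coordinate. -/
theorem red_of_intL {i : Fin 2} {x : K.fixedField S} (hx : x ∈ (K.ramExt S).intL i) :
    S.splitModel.Int i (x : FF) ∧
      S.splitModel.red i (x : FF) = (K.ramExt S).coordRed i x zeroF := by
  have := isFunctionField_level (M * p)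
  obtain ⟨hϖ, hϖ0, hϖv⟩ := K.ord_shift (isOver_of_setting S)
  refine red_of_isIntL (descent S) (K.ramExt S) hϖ ?_ (K.ramExt_π S) hx
  rw [residue_eq_zero_iff, ← ValuationSubring.coe_mem_nonunits_iff]
  refine ((isOver_of_setting S).nonunit_iff hϖ0).mpr ?_
  rw [← mul_pos_iff_of_pos_left (show (0 : ℚ) < (p : ℚ) by exact_mod_cast NeZero.pos p), hϖv]
  exact one_pos

omit [IsFunctionField (ResidueField ↥A) ↥(modularFunctionFieldFullC (ResidueField ↥A) M)]
    [HasPrincipalDivisors (ResidueField ↥A) ↥(modularFunctionFieldFullC (ResidueField ↥A) M)]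
    [CharP (↥(modularFunctionFieldFullC (ResidueField ↥A) M)) p] in
/-- A shortcut for instance search. -/
local instance algebraFixed : Algebra (descent S).F₀ (K.fixedField S) :=
  (K.fixedField S).algebra'

variable (U : LevelUnit S)

/-- **The decomposition of the divisor of the reduction.** -/
theorem exists_decomp_fixed
    (hcop : ∀ x (hx : x ∈ S.splitModel.pairs), ¬ p ∣ (pairAt U hx).e)
    {u : K.fixedField S} (hu : u ≠ 0) {D : Divisor Qbar FF}
    (hdiv : ∀ P, P.ord (u : FF) = (p : ℤ) * D P) :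
    ∃ (c : Qbar) (E V : Divisor (ResidueField A) (modularFunctionFieldFullC (ResidueField A) M))
      (s d : ℤ), c ≠ 0 ∧ d ≠ 0 ∧ d • V = unitZ U ∧ S.splitModel.Int 0 (c • (u : FF)) ∧
      S.splitModel.red 0 (c • (u : FF)) ≠ 0 ∧
      dvs (K := ResidueField A) (S.splitModel.red 0 (c • (u : FF))) = (p : ℤ) • E + s • V := by
  classical
  have := isFunctionField_level (M * p)
  have := S.isFunctionField_C
  have hp : p.Prime := Fact.out
  have hF : ((p : ℕ) : (descent S).F₀) ≠ 0 := MazurPrinciple.natCast_F₀_ne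
  set E := K.ramExt S
  have hcW : ∀ j, E.c j ∈ (descent S).W := fun j => K.ramExt_c_mem S j
  have hloc : LocallyPthPower (descent S).W E u := K.locallyPthPower S hu hdiv
  obtain ⟨v0, u0, hm0, hn0, he0⟩ := E.exists_normalise hF 0 hu
  obtain ⟨v1, u1, hm1, hn1, he1⟩ := E.exists_normalise hF 1 hu
  obtain ⟨hi0, hr0⟩ := red_of_intL S K hm0
  change _ = E.coordRed 0 u0 zeroF at hr0
  set z := S.splitModel.red 0 (u0 : FF) with hz
  -- the logarithmic parts are constants
  have hS := fun x (hx : x ∈ S.splitModel.pairs) => pair_slope E (pairAt U hx)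
    (fun j => (pairAt U hx).W_le (hcW j)) hu hloc hm0 hn0 he0 hm1 hn1 he1
  have hS0 := fun P (hP : P ∉ Descent.pairPoints S.splitModel 0) =>
    smooth_slope E ((descent S).smoothData (i := 0) hP) hF
      (fun j => ((descent S).smoothData (i := 0) hP).W_le (hcW j)) hu hloc hm0 hn0 he0
  have hS1 := fun P (hP : P ∉ Descent.pairPoints S.splitModel 1) =>
    smooth_slope E ((descent S).smoothData (i := 1) hP) hF
      (fun j => ((descent S).smoothData (i := 1) hP).W_le (hcW j)) hu hloc hm1 hn1 he1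
  obtain ⟨h0, hh0⟩ : ∃ c : ResidueField A,
      dlogRed E 0 u0 = algebraMap (ResidueField A) _ c :=
    exists_eq_algebraMap_of_forall fun P => by
    refine ofPlace_mem.mp ?_
    by_cases hP : P ∈ Descent.pairPoints S.splitModel 0
    · obtain ⟨x, hx, rfl⟩ := Finset.mem_image.mp hP
      exact (hS x hx).2.1
    · exact (hS0 P hP).2
  obtain ⟨h1, hh1⟩ : ∃ c : ResidueField A,
      dlogRed E 1 u1 = algebraMap (ResidueField A) _ c :=
    exists_eq_algebraMap_of_forall fun P => by
    refine ofPlace_mem.mp ?_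
    by_cases hP : P ∈ Descent.pairPoints S.splitModel 1
    · obtain ⟨x, hx, rfl⟩ := Finset.mem_image.mp hP
      exact (hS x hx).2.2.1
    · exact (hS1 P hP).2
  have hrel : ∀ x (hx : x ∈ S.splitModel.pairs),
      (((x.1.ord z) * ((pairAt U hx).e : ℤ) : ℤ) : ResidueField A) =
        (h0 - h1) * E.γ0 / E.γ1 := fun x hx => by
    have h := pair_slope_swap E (pairAt U hx) hF (fun j => (pairAt U hx).W_le (hcW j))
      hu hloc hm0 hn0 he0 hm1 hn1 he1
    rw [hh0, hh1, DVPoint.evF_algebraMap, DVPoint.evF_algebraMap, ofPlace_ord, ← hr0] at h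
    rw [h]
    push_cast
    have := E.γ0_ne
    have := E.γ1_ne
    field_simp
  obtain ⟨n, hn⟩ : ∃ n : ℤ, ∀ x (hx : x ∈ S.splitModel.pairs),
      (p : ℤ) ∣ x.1.ord z * ((pairAt U hx).e : ℤ) - n := by
    rcases S.splitModel.pairs.eq_empty_or_nonempty with h | ⟨x₀, hx₀⟩
    · exact ⟨0, fun x hx => absurd hx (h ▸ Finset.notMem_empty x)⟩
    refine ⟨x₀.1.ord z * ((pairAt U hx₀).e : ℤ), fun x hx =>
      (CharP.intCast_eq_zero_iff (ResidueField A) p _).mp ?_⟩
    rw [Int.cast_sub, hrel x hx, hrel x₀ hx₀, sub_self]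
  -- the exponents
  let L : ℕ := S.splitModel.pairs.attach.lcm fun x => (pairAt U x.2).e
  obtain ⟨d, hd⟩ : L ∣ 12 := Finset.lcm_dvd fun x _ => pair_e_dvd U x.2
  have hLe : ∀ x (hx : x ∈ S.splitModel.pairs), (pairAt U hx).e ∣ L := fun x hx =>
    Finset.dvd_lcm (s := S.splitModel.pairs.attach) (f := fun x => (pairAt U x.2).e)
      (Finset.mem_attach _ ⟨x, hx⟩)
  have hLcop : p.Coprime L := Nat.Coprime.coprime_dvd_right
    (Finset.lcm_dvd fun x hx => Finset.dvd_prod_of_mem _ hx)
    (Nat.Coprime.prod_right fun x _ => hp.coprime_iff_not_dvd.mpr (hcop x.1 x.2))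
  have hd0 : d ≠ 0 := fun h => by rw [h, mul_zero] at hd; omega
  obtain ⟨a', b', hab⟩ : IsCoprime (p : ℤ) (L : ℤ) := Nat.isCoprime_iff_coprime.mpr hLcop
  set s := b' * n
  -- everywhere
  have hall : ∀ P, ∃ v : ℤ, unitZ U P = (d : ℤ) * v ∧ (p : ℤ) ∣ P.ord z - s * v := by
    intro P
    by_cases hP : P ∈ Descent.pairPoints S.splitModel 0
    · obtain ⟨x, hx, rfl⟩ := Finset.mem_image.mp hP
      obtain ⟨f, hf⟩ := hLe x hx
      have hC : S.splitModel.C x.1 = 0 := (S.splitModel.mem_pairs.mp hx).1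
      have hj : ¬ x.1.ord (jbar (ResidueField A) M) < 0 := not_lt.mpr (S.ord_jbar_nonneg hC)
      have h12 := ord_unit_pair U hx
      have e12 : (12 : ℤ) = ((pairAt U hx).e : ℤ) * f * d := by
        rw [hf] at hd
        exact_mod_cast hd
      refine ⟨f, ?_, ?_⟩
      · show unitZ U x.1 = _
        rw [unitZ_apply, if_neg hj]
        refine mul_left_cancel₀ (Int.natCast_ne_zero.mpr (pairAt U hx).e_pos.ne') (h12.trans ?_)
        rw [← mul_assoc, show ((pairAt U hx).e : ℤ) * d * f = (pairAt U hx).e * f * d by ring,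
          ← e12]
      · obtain ⟨c, hc⟩ := hn x hx
        rw [hf] at hab
        push_cast at hab
        exact ⟨a' * x.1.ord z + b' * f * c, by
          show x.1.ord z - b' * n * f = _
          linear_combination (b' * (f : ℤ)) * hc + (-x.1.ord z) * hab⟩
    refine ⟨0, ?_, ?_⟩
    · rw [mul_zero, unitZ_apply]
      split_ifs with hj
      · rfl
      refine ord_unit_smooth U hP ?_
      show S.polesC P = 0
      rw [S.polesC_apply, max_eq_right (by omega), mul_zero]
    · rw [mul_zero, sub_zero]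
      have h := (hS0 P hP).1
      rwa [ofPlace_ord, ← hr0] at h
  choose v hv hv' using hall
  let V : Divisor (ResidueField A) (modularFunctionFieldFullC (ResidueField A) M) :=
    (unitZ U).mapRange (· / (d : ℤ)) (Int.zero_ediv _)
  have hd0' : (d : ℤ) ≠ 0 := Int.natCast_ne_zero.mpr hd0
  have hV : ∀ P, V P = v P := fun P => by
    show unitZ U P / (d : ℤ) = v P
    rw [hv, Int.mul_ediv_cancel_left _ hd0']
  let E' : Divisor (ResidueField A) (modularFunctionFieldFullC (ResidueField A) M) :=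
    (dvs (K := ResidueField A) z - s • V).mapRange (· / (p : ℤ)) (Int.zero_ediv _)
  set ϖ := K.θ - K.θ₀
  obtain ⟨-, hϖ0, -⟩ := K.ord_shift (isOver_of_setting S)
  have hcu : (ϖ ^ v0)⁻¹ • (u : FF) = (u0 : FF) :=
    smul_eq_of_zpow_mul (descent S) E hϖ0 (K.ramExt_π S) he0
  refine ⟨(ϖ ^ v0)⁻¹, E', V, s, d, inv_ne_zero (zpow_ne_zero _ hϖ0), hd0',
    Finsupp.ext fun P => ?_, ?_, ?_, Finsupp.ext fun P => ?_⟩
  · rw [Finsupp.smul_apply, smul_eq_mul, hV, hv]
  · rw [hcu]; exact hi0
  · rw [hcu, ← hz, hr0]; exact hn0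
  · rw [hcu]
    obtain ⟨c, hc⟩ := hv' P
    rw [Finsupp.add_apply, Finsupp.smul_apply, Finsupp.smul_apply, smul_eq_mul, smul_eq_mul,
      dvs_apply]
    show _ = (p : ℤ) * (((dvs (K := ResidueField A) z - s • V) P) / (p : ℤ)) + _
    rw [Finsupp.sub_apply, Finsupp.smul_apply, dvs_apply, smul_eq_mul, hV, hc,
      Int.mul_ediv_cancel_left _ (Int.natCast_ne_zero.mpr hp.ne_zero)]
    linarith

end Fermat.Agent.General.GoodPrime

end
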