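import Fermat.Agent.FlatJ0.Tangent.Levels
import Fermat.Agent.LevelP.Kummer

/-!
# A Kummer element below the ramification bound has integral value

If `z ^ p` is fixed by inertia and `z`, `ζ_p` lie in a field with the bound `p / (p - 1)`, then
`ord z` is an integer: otherwise `z ^ a (ζ - 1) ^ b` is a uniformiser with too large a different.
-/

noncomputable section

namespace Fermat.Agent.General.GoodPrime

open FlatJ0

local notation "Ω" => AlgebraicClosure ℚ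
local notation "G_ℚ" => (AlgebraicClosure ℚ) ≃ₐ[ℚ] (AlgebraicClosure ℚ)

variable {A : ValuationSubring Ω} {p : ℕ} {N : Subgroup G_ℚ}

/-- **The value of a Kummer element below the bound is integral.** -/
theorem exists_ord_eq_int_of_bound (h : IsOver A p) (hp3 : 3 ≤ p)
    (hle : N ≤ A.inertiaSubgroupIn ℚ)
    (hnormal : ∀ g ∈ A.inertiaSubgroupIn ℚ, ∀ n ∈ N, g * n * g⁻¹ ∈ N)
    (hopen : IsOpenInInertia A N)
    (hbound : ∀ γ : ℚ, (p : ℚ) / (p - 1) < γ → HasBound A p N γ)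
    {ζ z : Ω} (hζ : IsPrimitiveRoot ζ p) (hz : z ≠ 0) (hζN : ∀ σ ∈ N, σ ζ = ζ)
    (hzN : ∀ σ ∈ N, σ z = z) (hpow : ∀ σ ∈ A.inertiaSubgroupIn ℚ, σ (z ^ p) = z ^ p) :
    ∃ k : ℤ, ord A p z = k := by
  classical
  have hp := h.prime
  have : NeZero p := ⟨hp.ne_zero⟩
  obtain ⟨m, hm⟩ := h.exists_ord_eq_int (x := z ^ p) hpow
  rw [h.ord_pow hz] at hm
  have hpQ : (p : ℚ) ≠ 0 := Nat.cast_ne_zero.mpr hp.ne_zero
  by_cases hpm : (p : ℤ) ∣ m
  · obtain ⟨k, rfl⟩ := hpm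
    exact ⟨k, mul_left_cancel₀ hpQ (by rw [hm]; push_cast; rfl)⟩
  exfalso
  obtain ⟨a, b, hab⟩ : ∃ a b : ℤ, a * (m * ((p : ℤ) - 1)) + b * (p : ℤ) = 1 := by
    refine ((Nat.prime_iff_prime_int.mp hp).coprime_iff_not_dvd.mpr fun hd => ?_).symm
    rcases (Nat.prime_iff_prime_int.mp hp).dvd_mul.mp hd with hd | hd
    · exact hpm hd
    · have h1 : (p : ℤ) ∣ 1 := by simpa using dvd_sub (dvd_refl (p : ℤ)) hd
      exact hp.not_dvd_one (Int.natCast_dvd_natCast.mp h1)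
  have hpa : ¬ (p : ℤ) ∣ a := fun hd => by
    have h1 : (p : ℤ) ∣ 1 := hab ▸ dvd_add (hd.mul_right _) (dvd_mul_left _ _)
    exact hp.not_dvd_one (Int.natCast_dvd_natCast.mp h1)
  -- the level cut out by `ζ` and `z`
  set I := A.inertiaSubgroupIn ℚ with hI
  let M : Subgroup G_ℚ :=
    { carrier := {σ | σ ∈ I ∧ σ ζ = ζ ∧ σ z = z}
      one_mem' := ⟨one_mem _, rfl, rfl⟩
      mul_mem' := fun {s t} hs ht => ⟨mul_mem hs.1 ht.1,
        by rw [AlgEquiv.mul_apply, ht.2.1, hs.2.1], by rw [AlgEquiv.mul_apply, ht.2.2, hs.2.2]⟩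
      inv_mem' := fun {s} hs => ⟨inv_mem hs.1,
        s.injective (by rw [← AlgEquiv.mul_apply, mul_inv_cancel, AlgEquiv.one_apply, hs.2.1]),
        s.injective (by rw [← AlgEquiv.mul_apply, mul_inv_cancel, AlgEquiv.one_apply, hs.2.2])⟩ }
  have hζp : ∀ σ : G_ℚ, ∃ i < p, ζ ^ i = σ ζ := fun σ =>
    hζ.eq_pow_of_pow_eq_one (by rw [← map_pow, hζ.pow_eq_one, map_one])
  have hzp : ∀ σ ∈ I, ∃ i < p, σ z = ζ ^ i * z := fun σ hσ => by
    obtain ⟨i, hi, hie⟩ := hζ.eq_pow_of_pow_eq_one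
      (show (σ z / z) ^ p = 1 by rw [div_pow, ← map_pow, hpow σ hσ, div_self (pow_ne_zero _ hz)])
    exact ⟨i, hi, by rw [hie, div_mul_cancel₀ _ hz]⟩
  have hMle : M ≤ I := fun _ hσ => hσ.1
  have hNM : N ≤ M := fun σ hσ => ⟨hle hσ, hζN σ hσ, hzN σ hσ⟩
  have hMn : ∀ g ∈ I, ∀ n ∈ M, g * n * g⁻¹ ∈ M := by
    intro g hg n hn
    refine ⟨mul_mem (mul_mem hg hn.1) (inv_mem hg), ?_, ?_⟩
    · obtain ⟨i, -, hi⟩ := hζp g⁻¹
      rw [AlgEquiv.mul_apply, AlgEquiv.mul_apply, ← hi, map_pow n, hn.2.1, hi,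
        ← AlgEquiv.mul_apply, mul_inv_cancel, AlgEquiv.one_apply]
    · obtain ⟨i, -, hi⟩ := hzp g⁻¹ (inv_mem hg)
      rw [AlgEquiv.mul_apply, AlgEquiv.mul_apply, hi, map_mul n, map_pow n, hn.2.1, hn.2.2, ← hi,
        ← AlgEquiv.mul_apply, mul_inv_cancel, AlgEquiv.one_apply]
  obtain ⟨uN⟩ := exists_unif h hle hnormal hopen
  obtain ⟨F, hF, hF'⟩ := hopen
  obtain ⟨u₀⟩ := exists_unif h hMle hMn ⟨F, hF, fun σ hσ hσF => hNM (hF' σ hσ hσF)⟩
  set μ := Polynomial.nthRootsFinset p (1 : Ω) with hμ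
  have hmemμ : ∀ x : Ω, x ∈ μ ↔ x ^ p = 1 := fun x => Polynomial.mem_nthRootsFinset hp.pos 1
  set P : Finset (Ω × Ω) := μ.erase 1 ×ˢ μ with hP
  have hPcard : P.card = (p - 1) * p := by
    rw [hP, Finset.card_product, Finset.card_erase_of_mem ((hmemμ 1).mpr (one_pow p)),
      hζ.card_nthRootsFinset]
  have hmap : ∀ σ ∈ I, (σ ζ, σ z / z) ∈ P := fun σ hσ => by
    refine Finset.mem_product.mpr ⟨Finset.mem_erase.mpr ⟨fun e => hζ.ne_one hp.one_lt ?_,
      (hmemμ _).mpr (by rw [← map_pow, hζ.pow_eq_one, map_one])⟩, (hmemμ _).mpr ?_⟩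
    · exact σ.injective (e.trans (map_one σ).symm)
    · rw [div_pow, ← map_pow, hpow σ hσ, div_self (pow_ne_zero _ hz)]
  -- the pairs of a conjugate
  have hroots : ∀ (v : Unif A p M) (x : v.roots),
      ∃ σ, σ ∈ I ∧ σ v.π = (x : Ω) := fun v x => v.mem_roots.mp x.2
  choose s hsI hsx using hroots
  have hinj : ∀ v : Unif A p M, Function.Injective
      fun x : v.roots => (⟨_, hmap _ (hsI v x)⟩ : P) := by
    intro v x y hxy
    have hxy' := congrArg Subtype.val hxy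
    simp only [Prod.mk.injEq, div_left_inj' hz] at hxy'
    refine Subtype.ext ?_
    rw [← hsx v x, ← hsx v y]
    refine (v.apply_eq_of_mem (σ := s v x) (τ := s v y) ⟨mul_mem (inv_mem (hsI v x)) (hsI v y),
      ?_, ?_⟩).symm
    · rw [AlgEquiv.mul_apply, ← hxy'.1, ← AlgEquiv.mul_apply, inv_mul_cancel, AlgEquiv.one_apply]
    · rw [AlgEquiv.mul_apply, ← hxy'.2, ← AlgEquiv.mul_apply, inv_mul_cancel, AlgEquiv.one_apply]
  have hcardle : ∀ v : Unif A p M, v.e ≤ (p - 1) * p := fun v => by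
    have := Fintype.card_le_of_injective _ (hinj v)
    rwa [Fintype.card_coe, Fintype.card_coe, v.card_roots, hPcard] at this
  -- the uniformiser
  obtain ⟨hπ₀, hπ₁⟩ := OrdinaryT.exists_zeta h hζ
  have hζ1 : ζ - 1 ≠ 0 := sub_ne_zero.mpr (hζ.ne_one hp.one_lt)
  have hp1 : ((p : ℚ) - 1) ≠ 0 := by
    have : (3 : ℚ) ≤ p := by exact_mod_cast hp3
    linarith
  set π : Ω := z ^ a * (ζ - 1) ^ b with hπ
  have hπne : π ≠ 0 := mul_ne_zero (zpow_ne_zero _ hz) (zpow_ne_zero _ hζ1)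
  have hπord : ord A p π = 1 / (((p - 1) * p : ℕ) : ℚ) := by
    have hz' : ∀ (w : Ω) (j : ℤ), w ≠ 0 → ord A p (w ^ j) = j * ord A p w := fun w j hw => by
      obtain ⟨n, rfl | rfl⟩ := Int.eq_nat_or_neg j
      · rw [zpow_natCast, h.ord_pow hw]; push_cast; rfl
      · rw [zpow_neg, zpow_natCast, h.ord_inv (pow_ne_zero _ hw), h.ord_pow hw]; push_cast; ring
    rw [hπ, h.ord_mul (zpow_ne_zero _ hz) (zpow_ne_zero _ hζ1), hz' _ _ hz, hz' _ _ hζ1,
      Nat.cast_mul, Nat.cast_sub hp.one_le, Nat.cast_one, eq_div_iff (mul_ne_zero hp1 hpQ)]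
    have habQ : (a : ℚ) * (m * ((p : ℚ) - 1)) + b * p = 1 := by exact_mod_cast hab
    linear_combination (a : ℚ) * ((p : ℚ) - 1) * hm + (b : ℚ) * p * hπ₀ + habQ
  have hπM : ∀ σ ∈ M, σ π = π := fun σ hσ => by
    rw [hπ, map_mul, map_zpow₀, map_zpow₀, map_sub, map_one, hσ.2.1, hσ.2.2]
  have he : u₀.e = (p - 1) * p := by
    refine le_antisymm (hcardle u₀) ?_
    obtain ⟨w, hw⟩ := u₀.exists_ord_eq_div hπM hπne
    rw [hπord] at hw
    have hE : (0 : ℚ) < (((p - 1) * p : ℕ) : ℚ) :=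
      Nat.cast_pos.mpr (Nat.mul_pos (by omega) hp.pos)
    have he0 : (0 : ℚ) < u₀.e := Nat.cast_pos.mpr u₀.e_pos
    rw [div_eq_div_iff hE.ne' he0.ne', one_mul] at hw
    have hw' : (u₀.e : ℤ) = w * (((p - 1) * p : ℕ) : ℤ) := by exact_mod_cast hw
    have : 1 ≤ w := by
      by_contra hlt
      push Not at hlt
      have : w * (((p - 1) * p : ℕ) : ℤ) ≤ 0 :=
        mul_nonpos_of_nonpos_of_nonneg (by omega) (Int.natCast_nonneg _)
      have := u₀.e_pos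
      omega
    have h2 := le_mul_of_one_le_left (Int.natCast_nonneg ((p - 1) * p)) this
    omega
  let u : Unif A p M := ⟨h, hMle, hMn, (p - 1) * p, u₀.index_eq.trans he,
    Nat.mul_pos (by omega) hp.pos, π, hπne, hπM, hπord⟩
  have hsurj : Function.Surjective fun x : u.roots => (⟨_, hmap _ (hsI u x)⟩ : P) :=
    ((Fintype.bijective_iff_injective_and_card _).mpr
      ⟨hinj u, by rw [Fintype.card_coe, Fintype.card_coe, u.card_roots, hPcard]⟩).2
  have hwild : ∀ j : ℕ, ζ ^ j ≠ 1 → ∃ x ∈ u.roots.erase u.π,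
      x = (ζ ^ j) ^ a * π ∧ ord A p (x - u.π) = 1 / ((p : ℚ) - 1) + 1 / (u.e : ℚ) := by
    intro j hj
    obtain ⟨x, hx⟩ := hsurj ⟨(ζ, ζ ^ j), Finset.mem_product.mpr
      ⟨Finset.mem_erase.mpr ⟨hζ.ne_one hp.one_lt, (hmemμ _).mpr hζ.pow_eq_one⟩,
        (hmemμ _).mpr (by rw [← pow_mul, mul_comm, pow_mul, hζ.pow_eq_one, one_pow])⟩⟩
    have hx' := congrArg Subtype.val hx
    simp only [Prod.mk.injEq] at hx'
    have hxe : (x : Ω) = (ζ ^ j) ^ a * π := by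
      rw [← hsx u x]
      show s u x (z ^ a * (ζ - 1) ^ b) = _
      rw [map_mul, map_zpow₀, map_zpow₀, map_sub, map_one, hx'.1,
        show s u x z = ζ ^ j * z by rw [← hx'.2, div_mul_cancel₀ _ hz], mul_zpow, hπ, mul_assoc]
    obtain ⟨i, hi, hie⟩ := hζ.eq_pow_of_pow_eq_one (ξ := (ζ ^ j) ^ a) (by
      rw [← zpow_natCast, ← zpow_mul, mul_comm, zpow_mul, zpow_natCast, ← pow_mul, mul_comm,
        pow_mul, hζ.pow_eq_one, one_pow, one_zpow])
    have hi0 : ¬ p ∣ i := fun hd => by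
      rw [(hζ.pow_eq_one_iff_dvd i).mpr hd, eq_comm,
        (show ζ ^ j = ζ ^ (j : ℤ) from (zpow_natCast ζ j).symm), ← zpow_mul,
        hζ.zpow_eq_one_iff_dvd] at hie
      rcases (Nat.prime_iff_prime_int.mp hp).dvd_mul.mp hie with h1 | h1
      · exact hj ((hζ.pow_eq_one_iff_dvd j).mpr (Int.natCast_dvd_natCast.mp h1))
      · exact hpa h1
    obtain ⟨h1, h2⟩ := LevelP.ord_root_sub h hζ hi0
    have hsub : (x : Ω) - u.π = (ζ ^ i - 1) * π := by rw [hxe, hie]; show _ - π = _; ring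
    refine ⟨x, Finset.mem_erase.mpr ⟨fun e => mul_ne_zero h1 hπne ?_, x.2⟩, hxe, ?_⟩
    · rw [← hsub, e, sub_self]
    · rw [hsub, h.ord_mul h1 hπne, hπord]
      refine congrArg₂ (· + ·) ?_ rfl
      rw [eq_div_iff hp1, mul_comm]
      exact h2
  choose! f hfmem hfeq hford using hwild
  have hj : ∀ j ∈ Finset.Icc 1 (p - 1), ζ ^ j ≠ 1 := fun j hj e => by
    rw [Finset.mem_Icc] at hj
    have := Nat.le_of_dvd (by omega) ((hζ.pow_eq_one_iff_dvd j).mp e)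
    omega
  set T := (Finset.Icc 1 (p - 1)).image f with hT
  have hTcard : T.card = p - 1 := by
    rw [hT, Finset.card_image_of_injOn, Nat.card_Icc]
    · omega
    intro i hi j hj' hij
    rw [Finset.mem_coe] at hi hj'
    rw [hfeq i (hj i hi), hfeq j (hj j hj')] at hij
    have h1 := mul_right_cancel₀ hπne hij
    rw [← zpow_natCast, ← zpow_natCast ζ j, ← zpow_mul, ← zpow_mul] at h1
    have h2 : ζ ^ ((i : ℤ) * a - j * a) = 1 := by
      rw [zpow_sub₀ (hζ.ne_zero hp.ne_zero), h1,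
        div_self (zpow_ne_zero _ (hζ.ne_zero hp.ne_zero))]
    rw [hζ.zpow_eq_one_iff_dvd, ← sub_mul] at h2
    rcases (Nat.prime_iff_prime_int.mp hp).dvd_mul.mp h2 with h3 | h3
    · rw [Finset.mem_Icc] at hi hj'
      have := Int.eq_zero_of_abs_lt_dvd h3 (by rw [abs_lt]; constructor <;> omega)
      omega
    · exact absurd h3 hpa
  have hTsub : T ⊆ u.roots.erase u.π := Finset.image_subset_iff.mpr fun j hj' => hfmem j (hj j hj')
  -- the lower bound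
  set d := fun x => ord A p (x - u.π) with hd
  have hlow : (1 : ℚ) + ((u.e : ℚ) - 1) / u.e ≤ ∑ r ∈ u.roots.erase u.π, d r := by
    have h1 : ∀ r ∈ u.roots.erase u.π, 1 / (u.e : ℚ) ≤ d r := fun r hr => by
      obtain ⟨hne, hr⟩ := Finset.mem_erase.mp hr
      obtain ⟨σ, hσ, rfl⟩ := u.mem_roots.mp hr
      have := (u.wild_zero hσ).resolve_left (sub_ne_zero.mpr hne)
      rwa [Nat.cast_zero, zero_add] at this
    have h2 : ∑ r ∈ T, (d r - 1 / (u.e : ℚ)) ≤ ∑ r ∈ u.roots.erase u.π, (d r - 1 / (u.e : ℚ)) :=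
      Finset.sum_le_sum_of_subset_of_nonneg hTsub fun r hr _ => sub_nonneg.mpr (h1 r hr)
    have h3 : ∀ r ∈ T, d r - 1 / (u.e : ℚ) = 1 / ((p : ℚ) - 1) := fun r hr => by
      obtain ⟨j, hj', rfl⟩ := Finset.mem_image.mp hr
      simp only [hd]
      rw [hford j (hj j hj')]; ring
    rw [Finset.sum_congr rfl h3, Finset.sum_const, hTcard, nsmul_eq_mul, Nat.cast_sub hp.one_le,
      Nat.cast_one, mul_one_div, div_self hp1, Finset.sum_sub_distrib, Finset.sum_const,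
      Finset.card_erase_of_mem u.π_mem_roots, u.card_roots, nsmul_eq_mul,
      Nat.cast_sub u.e_pos, Nat.cast_one, mul_one_div] at h2
    linarith
  have hB : (1 : ℚ) ≤ (p : ℚ) / (p - 1) := by
    have : (3 : ℚ) ≤ p := by exact_mod_cast hp3
    rw [le_div_iff₀ (by linarith)]
    linarith
  have hone : f 1 ∈ u.roots.erase u.π := hfmem 1 (hj 1 (Finset.mem_Icc.mpr ⟨le_rfl, by omega⟩))
  have hup := Unif.sum_le_quotient uN u hNM
    (fun x₀ hx₀ hx => uN.sum_le_of_forall_hasBound hB hbound hx₀ hx)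
    (Finset.mem_of_mem_erase hone) (Finset.ne_of_mem_erase hone)
  change (∑ r ∈ u.roots.erase u.π, d r) + _ ≤ _ at hup
  rw [hford 1 (hj 1 (Finset.mem_Icc.mpr ⟨le_rfl, by omega⟩))] at hup
  have hue : (u.e : ℚ) = ((p : ℚ) - 1) * p := by
    show (((p - 1) * p : ℕ) : ℚ) = _
    rw [Nat.cast_mul, Nat.cast_sub hp.one_le, Nat.cast_one]
  have hp3' : (3 : ℚ) ≤ p := by exact_mod_cast hp3
  have he2 : 2 / (u.e : ℚ) ≤ 1 / 3 := by
    rw [hue, div_le_iff₀ (by nlinarith)]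
    nlinarith
  have he3 : ((u.e : ℚ) - 1) / u.e + 1 / u.e = 1 := by
    rw [← add_div, sub_add_cancel, div_self (Nat.cast_ne_zero.mpr u.e_pos.ne')]
  have he4 : (p : ℚ) / (p - 1) = 1 + 1 / ((p : ℚ) - 1) := by
    field_simp
    ring
  rw [he4] at hup
  linarith

end Fermat.Agent.General.GoodPrime

end
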